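import Fermat.Prelude.Def_GaloisRep_Residual
import Mathlib.FieldTheory.Normal.Closure
import Mathlib.FieldTheory.IntermediateField.Adjoin.Algebra
import Mathlib.FieldTheory.IsAlgClosed.Classification

/-!
# Finite level of torsion representations

The representation on finite torsion of an elliptic curve over `ℚ` factors through a finite
extension, and two such representations factor through a common finite Galois extension.
-/

set_option autoImplicit false

noncomputable section

open scoped WeierstrassCurve.Affine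

namespace Fermat.Agent.HeckeAlg

/-- If the `n`-torsion is finite, the mod-`n` representation has finite level: the field generated
by the coordinates of the torsion points is a finite extension of `ℚ`. -/
theorem galoisFactorsThroughFiniteLevel_galoisRepModuleEnd (W : WeierstrassCurve ℚ) (n : ℕ)
    [Finite (Submodule.torsionBy ℤ (W⁄(AlgebraicClosure ℚ)).Point n)] :
    GaloisFactorsThroughFiniteLevel
      (WeierstrassCurve.Affine.Point.galoisRepModuleEnd (K := AlgebraicClosure ℚ) ℚ W n) := by
  classical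
  let s : Set (AlgebraicClosure ℚ) :=
    ⋃ z : Submodule.torsionBy ℤ (W⁄(AlgebraicClosure ℚ)).Point n,
      match (z : (W⁄(AlgebraicClosure ℚ)).Point) with
      | .zero => ∅
      | .some x y _ => {x, y}
  have : Finite s := by
    refine Set.Finite.to_subtype (Set.finite_iUnion fun z => ?_)
    rcases (z : (W⁄(AlgebraicClosure ℚ)).Point) with _ | ⟨x, y, h⟩
    · exact Set.finite_empty
    · exact (Set.finite_singleton _).insert _
  refine ⟨IntermediateField.adjoin ℚ s, IntermediateField.finiteDimensional_adjoin fun x _ =>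
    (AlgebraicClosure.isAlgebraic ℚ).isAlgebraic x |>.isIntegral, fun σ hσ => ?_⟩
  refine LinearMap.ext fun z => Subtype.ext ?_
  show σ • (z : (W⁄(AlgebraicClosure ℚ)).Point) = z
  obtain ⟨P, hP⟩ := z
  cases P with
  | zero => rfl
  | some x y h =>
    have hx : σ x = x := hσ x (IntermediateField.subset_adjoin ℚ s
      (Set.mem_iUnion.mpr ⟨⟨_, hP⟩, by simp⟩))
    have hy : σ y = y := hσ y (IntermediateField.subset_adjoin ℚ s
      (Set.mem_iUnion.mpr ⟨⟨_, hP⟩, by simp⟩))
    rw [WeierstrassCurve.Affine.Point.algEquiv_smul_def, WeierstrassCurve.Affine.Point.map_some]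
    simp [hx, hy]

/-- Two finite-level homomorphisms factor through a common finite Galois level. -/
theorem exists_numberField_level {M₁ M₂ : Type} [MulOneClass M₁] [MulOneClass M₂]
    {r₁ : (AlgebraicClosure ℚ ≃ₐ[ℚ] AlgebraicClosure ℚ) →* M₁}
    {r₂ : (AlgebraicClosure ℚ ≃ₐ[ℚ] AlgebraicClosure ℚ) →* M₂}
    (h₁ : GaloisFactorsThroughFiniteLevel r₁) (h₂ : GaloisFactorsThroughFiniteLevel r₂) :
    ∃ (F : IntermediateField ℚ (AlgebraicClosure ℚ)),
      FiniteDimensional ℚ F ∧ IsGalois ℚ F ∧
      ∀ σ : AlgebraicClosure ℚ ≃ₐ[ℚ] AlgebraicClosure ℚ, (∀ x ∈ F, σ x = x) →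
        r₁ σ = 1 ∧ r₂ σ = 1 := by
  have : Algebra.IsAlgebraic ℚ (AlgebraicClosure ℚ) := AlgebraicClosure.isAlgebraic ℚ
  have : IsAlgClosure ℚ (AlgebraicClosure ℚ) := ⟨inferInstance, inferInstance⟩
  have : Normal ℚ (AlgebraicClosure ℚ) := IsAlgClosure.normal ℚ (AlgebraicClosure ℚ)
  obtain ⟨L₁, hf₁, h₁⟩ := h₁
  obtain ⟨L₂, hf₂, h₂⟩ := h₂
  have := hf₁
  have := hf₂
  let L := L₁ ⊔ L₂
  have : FiniteDimensional ℚ L := IntermediateField.finiteDimensional_sup L₁ L₂
  let F := IntermediateField.normalClosure ℚ L (AlgebraicClosure ℚ)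
  have hle : L ≤ F := L.le_normalClosure
  have : Normal ℚ F := normalClosure.normal ℚ L (AlgebraicClosure ℚ)
  have : IsGalois ℚ F := ⟨⟩
  refine ⟨F, inferInstance, inferInstance,
    fun σ hσ => ⟨h₁ σ fun x hx => hσ x (hle (le_sup_left (a := L₁) (b := L₂) hx)),
    h₂ σ fun x hx => hσ x (hle (le_sup_right (a := L₁) (b := L₂) hx))⟩⟩

end Fermat.Agent.HeckeAlg
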