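import Fermat.Agent.HeckeLift.Basic
import Fermat.Prelude.Def_FLTPrelim_ModularRep

/-!
# The eigencharacter of a normalised weight-two eigenform

A normalised eigenform `g` is an eigenvector of `T_p` and `U_q` with eigenvalue its `p`-th (resp.
`q`-th) Fourier coefficient; the resulting character of each Hecke algebra takes values in the
algebraic integers when the algebra is finite over `ℤ`.
-/

set_option autoImplicit false

noncomputable section

open scoped IsMulCommutative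

namespace Fermat.Agent.HeckeAlg

open ModularFormClass CongruenceSubgroup Fermat.Agent.HeckeLift

variable {N : ℕ} [NeZero N] {g : CuspForm (Gamma0 N) 2}

/-- `T_p g = a_p g` for a normalised eigenform `g` and `p ∤ N`. -/
theorem heckeTLin_eq_qCoeff_smul (hg : g.IsNormalizedEigenform) {p : ℕ} (hp : p.Prime)
    (hpN : ¬ p ∣ N) : CuspForm.heckeTLin 2 hp hpN g = qCoeff ⇑g p • g := by
  refine sub_eq_zero.mp (eq_zero_of_qCoeff _ fun n => ?_)
  rw [qCoeff_sub, qCoeff_smul, qCoeff_heckeTLin hp hpN, show (2 : ℤ) - 1 = 1 by norm_num, zpow_one]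
  rcases eq_or_ne n 0 with rfl | hn
  · simp [qCoeff_at_zero g]
  obtain ⟨r, m, hm, rfl⟩ := Nat.exists_eq_pow_mul_and_not_dvd hn p hp.ne_one
  have hcop : ∀ j : ℕ, (p ^ j).Coprime m := fun j =>
    Nat.Coprime.pow_left j (hp.coprime_iff_not_dvd.mpr hm)
  rw [mul_right_comm (p ^ r) m p, ← pow_succ, hg.qCoeff_mul_of_coprime _ _ (hcop (r + 1)),
    hg.qCoeff_mul_of_coprime _ _ (hcop r)]
  cases r with
  | zero => rw [pow_zero, one_mul, if_neg hm, zero_add, pow_one, hg.qCoeff_one]; ring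
  | succ s =>
    rw [if_pos (Dvd.dvd.mul_right (dvd_pow_self p (Nat.succ_ne_zero s)) m), pow_succ' p s,
      mul_assoc, Nat.mul_div_cancel_left _ hp.pos, ← pow_succ' p s,
      hg.qCoeff_mul_of_coprime _ _ (hcop s), hg.qCoeff_prime_pow_of_not_dvd p s hp hpN]
    ring

/-- `U_q g = a_q g` for a normalised eigenform `g` and `q ∣ N`. -/
theorem heckeULin_eq_qCoeff_smul (hg : g.IsNormalizedEigenform) {q : ℕ} (hq : q.Prime)
    (hqN : q ∣ N) : CuspForm.heckeULin 2 hqN g = qCoeff ⇑g q • g := by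
  refine sub_eq_zero.mp (eq_zero_of_qCoeff _ fun n => ?_)
  rw [qCoeff_sub, qCoeff_smul, qCoeff_heckeULin hq hqN]
  rcases eq_or_ne n 0 with rfl | hn
  · simp [qCoeff_at_zero g]
  obtain ⟨r, m, hm, rfl⟩ := Nat.exists_eq_pow_mul_and_not_dvd hn q hq.ne_one
  have hcop : ∀ j : ℕ, (q ^ j).Coprime m := fun j =>
    Nat.Coprime.pow_left j (hq.coprime_iff_not_dvd.mpr hm)
  rw [mul_right_comm (q ^ r) m q, ← pow_succ, hg.qCoeff_mul_of_coprime _ _ (hcop (r + 1)),
    hg.qCoeff_mul_of_coprime _ _ (hcop r)]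
  cases r with
  | zero => rw [pow_zero, zero_add, pow_one, hg.qCoeff_one]; ring
  | succ s => rw [hg.qCoeff_prime_pow_of_dvd q s hq hqN]; ring

/-- The eigencharacter of a normalised eigenform on any of the Hecke algebras. -/
theorem exists_eigenCharacter (hg : g.IsNormalizedEigenform) (S : Set ℕ) :
    ∃ χ : CuspForm.heckeAlgebra N 2 S →+* ℂ,
      (∀ t : CuspForm.heckeAlgebra N 2 S,
        (t : Module.End ℂ (CuspForm (Gamma0 N) 2)) g = χ t • g) ∧
      (∀ (p : ℕ) (hp : p.Prime) (hpN : ¬ p ∣ N) (hpS : p ∉ S),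
        χ (CuspForm.heckeAlgebra.T hp hpN hpS) = qCoeff ⇑g p) ∧
      (∀ (q : ℕ) (hq : q.Prime) (hqN : q ∣ N) (hqS : q ∉ S),
        χ (CuspForm.heckeAlgebra.U hq hqN hqS) = qCoeff ⇑g q) := by
  have key : ∀ t : CuspForm.heckeAlgebra N 2 S, ∃ c : ℂ,
      (t : Module.End ℂ (CuspForm (Gamma0 N) 2)) g = c • g := by
    rintro ⟨t, ht⟩
    induction ht using Algebra.adjoin_induction with
    | mem x hx =>
      rcases hx with ⟨ℓ, hℓ, hℓN, -, rfl⟩ | ⟨q, hqN, hq, -, rfl⟩
      · exact ⟨_, heckeTLin_eq_qCoeff_smul hg hℓ hℓN⟩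
      · exact ⟨_, heckeULin_eq_qCoeff_smul hg hq hqN⟩
    | algebraMap r => exact ⟨r, by simp [← Int.cast_smul_eq_zsmul ℂ]⟩
    | add x y _ _ hx hy =>
      obtain ⟨a, ha⟩ := hx
      obtain ⟨b, hb⟩ := hy
      exact ⟨a + b, by rw [LinearMap.add_apply, ha, hb, add_smul]⟩
    | mul x y _ _ hx hy =>
      obtain ⟨a, ha⟩ := hx
      obtain ⟨b, hb⟩ := hy
      exact ⟨a * b, by rw [Module.End.mul_apply, hb, map_smul, ha, smul_smul, mul_comm]⟩
  choose c hc using key
  have hinj : ∀ a b : ℂ, a • g = b • g → a = b := fun a b h => smul_left_injective ℂ hg.ne_zero h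
  refine ⟨{ toFun := c, map_one' := ?_, map_mul' := fun x y => ?_, map_zero' := ?_,
            map_add' := fun x y => ?_ }, hc, fun p hp hpN hpS => ?_, fun q hq hqN hqS => ?_⟩
  · exact hinj _ _ (by rw [← hc 1]; simp)
  · exact hinj _ _ (by
      rw [← hc (x * y), MulMemClass.coe_mul, Module.End.mul_apply, hc y, map_smul, hc x, smul_smul,
        mul_comm])
  · exact hinj _ _ (by rw [← hc 0]; simp)
  · exact hinj _ _ (by rw [← hc (x + y), AddMemClass.coe_add, LinearMap.add_apply,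
      hc x, hc y, add_smul])
  · exact hinj _ _ ((hc _).symm.trans (heckeTLin_eq_qCoeff_smul hg hp hpN))
  · exact hinj _ _ ((hc _).symm.trans (heckeULin_eq_qCoeff_smul hg hq hqN))

/-- The eigencharacter takes values in the algebraic integers when the Hecke algebra is finite. -/
theorem exists_eigenCharacter_integral (hg : g.IsNormalizedEigenform) (S : Set ℕ)
    [Algebra.IsIntegral ℤ (CuspForm.heckeAlgebra N 2 S)] :
    ∃ χ : CuspForm.heckeAlgebra N 2 S →+* integralClosure ℤ ℂ,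
      ∀ (p : ℕ) (hp : p.Prime) (hpN : ¬ p ∣ N) (hpS : p ∉ S),
        (χ (CuspForm.heckeAlgebra.T hp hpN hpS) : ℂ) = qCoeff ⇑g p := by
  obtain ⟨χ, -, hT, -⟩ := exists_eigenCharacter hg S
  exact ⟨χ.codRestrict (integralClosure ℤ ℂ).toSubring fun t =>
    map_isIntegral_int χ (Algebra.IsIntegral.isIntegral t), hT⟩

end Fermat.Agent.HeckeAlg
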