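import Mathlib.RingTheory.Ideal.GoingUp
import Mathlib.FieldTheory.IsAlgClosed.Basic
import Mathlib.Analysis.Complex.Polynomial.Basic
import Mathlib.RingTheory.IntegralClosure.IsIntegralClosure.Basic
import Mathlib.RingTheory.Ideal.Quotient.Operations
import Mathlib.RingTheory.LittleWedderburn
import Mathlib.Algebra.Polynomial.Lifts
import Mathlib.Algebra.CharP.Basic

/-!
# Residue fields of the ring of algebraic integers

For a homomorphism `φ : ℤ̄ → k` to a field of characteristic `p > 0`, the kernel is maximal, the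
quotient is algebraically closed, and any finite field receiving a subring compatibly with `φ`
embeds into `k` compatibly with `φ`.
-/

set_option autoImplicit false

noncomputable section

open Polynomial

namespace Fermat.Agent.HeckeAlg

local notation "Z̄" => integralClosure ℤ ℂ

theorem isMaximal_of_natCast_mem {P : Ideal Z̄} (hP : P.IsPrime) {p : ℕ} (hp : p.Prime)
    (hpP : (p : Z̄) ∈ P) : P.IsMaximal := by
  have := hP
  have : Algebra.IsIntegral ℤ Z̄ := IsIntegralClosure.isIntegral_algebra ℤ ℂ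
  refine Ideal.isMaximal_of_isIntegral_of_isMaximal_comap (R := ℤ) P ?_
  have hmax : (Ideal.span {(p : ℤ)}).IsMaximal :=
    PrincipalIdealRing.isMaximal_of_irreducible (Nat.prime_iff_prime_int.mp hp).irreducible
  rwa [← hmax.eq_of_le (Ideal.IsPrime.comap (algebraMap ℤ Z̄)).ne_top
    ((Ideal.span_singleton_le_iff_mem _).mpr (by simpa using hpP))]

/-- The kernel of a map from the algebraic integers to a field of characteristic `p` is maximal. -/
theorem ker_isMaximal {k : Type*} [Field k] {p : ℕ} (hp : p.Prime) [CharP k p] (φ : Z̄ →+* k) :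
    (RingHom.ker φ).IsMaximal :=
  isMaximal_of_natCast_mem (RingHom.ker_isPrime φ) hp
    (by rw [RingHom.mem_ker, map_natCast, CharP.cast_eq_zero])

/-- The residue fields of the ring of algebraic integers are algebraically closed. -/
theorem isAlgClosed_quotient (𝔪 : Ideal Z̄) [𝔪.IsMaximal] :
    letI := Ideal.Quotient.field 𝔪
    IsAlgClosed (Z̄ ⧸ 𝔪) := by
  let := Ideal.Quotient.field 𝔪
  refine IsAlgClosed.of_exists_root _ fun f hmon hirr => ?_
  obtain ⟨g, hg, hdeg, hgm⟩ := Polynomial.lifts_and_natDegree_eq_and_monic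
    ((mem_lifts f).mpr (map_surjective _ Ideal.Quotient.mk_surjective f)) hmon
  have hdeg' : (g.map (algebraMap Z̄ ℂ)).degree ≠ 0 := by
    intro h
    have h' := natDegree_eq_of_degree_eq_some (n := 0) h
    rw [hgm.natDegree_map, hdeg] at h'
    exact hirr.natDegree_pos.ne' h'
  obtain ⟨z, hz⟩ := IsAlgClosed.exists_root (g.map (algebraMap Z̄ ℂ)) hdeg'
  have : Algebra.IsIntegral ℤ Z̄ := IsIntegralClosure.isIntegral_algebra ℤ ℂ
  have hint : IsIntegral ℤ z :=
    isIntegral_trans (A := Z̄) z ⟨g, hgm, by rwa [IsRoot, eval_map] at hz⟩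
  let w : Z̄ := ⟨z, hint⟩
  have hroot : g.eval w = 0 := by
    apply Subtype.ext
    have h : g.eval₂ (algebraMap Z̄ ℂ) (algebraMap Z̄ ℂ w) = 0 := by
      rw [← eval_map]; exact hz
    rwa [eval₂_at_apply] at h
  refine ⟨Ideal.Quotient.mk 𝔪 w, ?_⟩
  rw [← hg, eval_map, eval₂_at_apply, hroot, map_zero]

/-- A finite field `κ` receiving `R` compatibly with `φ ∘ j` embeds in `k` compatibly. -/
theorem exists_residueField_hom {k : Type*} [Field k] {p : ℕ} (hp : p.Prime) [CharP k p]
    (φ : Z̄ →+* k) {R : Type*} [CommRing R] (j : R →+* Z̄) {κ : Type*} [Field κ] [Finite κ]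
    (θ : R →+* κ) (hθ : RingHom.ker θ = RingHom.ker (φ.comp j)) :
    ∃ e : κ →+* k, e.comp θ = φ.comp j := by
  have := ker_isMaximal hp φ
  let : Field (Z̄ ⧸ RingHom.ker φ) := Ideal.Quotient.field _
  have := isAlgClosed_quotient (RingHom.ker φ)
  have : (RingHom.ker θ).IsPrime := RingHom.ker_isPrime θ
  have : Finite (R ⧸ RingHom.ker θ) := Finite.of_injective _ θ.kerLift_injective
  have : (RingHom.ker θ).IsMaximal :=
    Ideal.Quotient.maximal_of_isField _ (Finite.isField_of_domain _)
  let : Field (R ⧸ RingHom.ker θ) := Ideal.Quotient.field _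
  let : Algebra (R ⧸ RingHom.ker θ) κ := θ.kerLift.toAlgebra
  let ψ : R ⧸ RingHom.ker θ →+* Z̄ ⧸ RingHom.ker φ :=
    Ideal.Quotient.lift _ ((Ideal.Quotient.mk _).comp j) fun a ha => by
      rw [hθ, RingHom.mem_ker, RingHom.comp_apply] at ha
      exact Ideal.Quotient.eq_zero_iff_mem.mpr ha
  let : Algebra (R ⧸ RingHom.ker θ) (Z̄ ⧸ RingHom.ker φ) := ψ.toAlgebra
  have : Algebra.IsAlgebraic (R ⧸ RingHom.ker θ) κ :=
    haveI : Module.Finite (R ⧸ RingHom.ker θ) κ := Module.Finite.of_finite
    Algebra.IsAlgebraic.of_finite _ _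
  let l : κ →ₐ[R ⧸ RingHom.ker θ] Z̄ ⧸ RingHom.ker φ := IsAlgClosed.lift
  refine ⟨φ.kerLift.comp l.toRingHom, RingHom.ext fun r => ?_⟩
  have h : l (θ r) = Ideal.Quotient.mk _ (j r) := l.commutes (Ideal.Quotient.mk _ r)
  simp only [RingHom.comp_apply, AlgHom.toRingHom_eq_coe, RingHom.coe_coe, h]
  rfl

end Fermat.Agent.HeckeAlg
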