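import Fermat.Agent.HeckeAlg.DVRLift
import Fermat.Agent.HeckeAlg.ResidueEmbedding
import Fermat.Agent.HeckeAlg.EigenCharacter
import Fermat.Prelude.Def_CuspForm_HeckeGaloisRepDatum
import Mathlib.LinearAlgebra.Charpoly.BaseChange

/-!
# Residual representations of eigenforms from `λ`-adic representations of Hecke points

Assume that every point of a weight-two Hecke algebra in a complete discrete valuation ring
carries a Galois representation with the Eichler–Shimura Frobenius polynomials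
(`GaloisRepOfPoint`) and that the Hecke algebra is finite over `ℤ`. Then every normalised
eigenform has a residual Galois representation attached to it
(`exists_residualGaloisRep_isAttachedTo`).
-/

set_option autoImplicit false

noncomputable section

open Polynomial
open scoped IsMulCommutative TensorProduct

namespace Fermat.Agent.HeckeAlg

local notation "Z̄" => integralClosure ℤ ℂ

/-- Every point of a weight-two anemic Hecke algebra in a complete DVR carries, after a finite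
extension, a Galois representation with Frobenius polynomials `X² - χ(T_ℓ) X + ℓ`, unramified
away from `N p`. -/
def GaloisRepOfPoint : Prop :=
  ∀ (p : ℕ) [Fact p.Prime] (N : ℕ) [NeZero N] (S : Finset ℕ)
    (_hpS : p ∈ S) (_hNS : ∀ q : ℕ, q.Prime → q ∣ N → q ∈ S)
    (𝒪' : Type) [CommRing 𝒪'] [IsDomain 𝒪'] [IsDiscreteValuationRing 𝒪']
    [IsAdicComplete (IsLocalRing.maximalIdeal 𝒪') 𝒪'] [Finite (IsLocalRing.ResidueField 𝒪')]
    [CharZero 𝒪'] (_hp𝒪' : (p : 𝒪') ∈ IsLocalRing.maximalIdeal 𝒪')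
    (χ : CuspForm.heckeAlgebra N 2 (↑S : Set ℕ) →+* 𝒪'),
    ∃ (𝒪'' : Type) (_ : CommRing 𝒪'') (_ : IsDomain 𝒪'') (_ : IsDiscreteValuationRing 𝒪'')
      (_ : IsAdicComplete (IsLocalRing.maximalIdeal 𝒪'') 𝒪'')
      (_ : Finite (IsLocalRing.ResidueField 𝒪'')) (_ : CharZero 𝒪'')
      (_ : Algebra 𝒪' 𝒪'') (_ : Module.Finite 𝒪' 𝒪'') (_ : IsLocalHom (algebraMap 𝒪' 𝒪'')),
    Function.Injective (algebraMap 𝒪' 𝒪'') ∧
    ∃ ρ : GaloisRepAdic 𝒪'',
      (∀ (ℓ : ℕ) (hℓ : ℓ.Prime) (hℓN : ¬ ℓ ∣ N) (hℓS : ℓ ∉ (↑S : Set ℕ)),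
        ∀ A : ValuationSubring (AlgebraicClosure ℚ), A.LiesOverPrime ℓ →
          ∀ σ : AlgebraicClosure ℚ ≃ₐ[ℚ] AlgebraicClosure ℚ, A.IsFrobeniusAt σ ℓ →
            LinearMap.charpoly (ρ.ρ σ) =
              X ^ 2 - C (algebraMap 𝒪' 𝒪'' (χ (CuspForm.heckeAlgebra.T hℓ hℓN hℓS))) * X
                + C ((ℓ : 𝒪''))) ∧
      (∀ q : ℕ, q.Prime → ¬ q ∣ N → q ≠ p → ρ.IsUnramifiedAt q)

/-- Extending scalars maps the characteristic polynomials along the field embedding. -/
theorem charpoly_baseChangeAlong {k k' : Type} [Field k] [Field k'] (e : k →+* k')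
    (ρ : ResidualGaloisRep k) (σ : AlgebraicClosure ℚ ≃ₐ[ℚ] AlgebraicClosure ℚ) :
    LinearMap.charpoly ((ρ.baseChangeAlong e).ρ σ) = (LinearMap.charpoly (ρ.ρ σ)).map e := by
  let : Algebra k k' := e.toAlgebra
  exact LinearMap.charpoly_baseChange (ρ.ρ σ) (A := k')

/-- The residual characteristic polynomials are the reductions of the adic ones. -/
theorem charpoly_residual {A : Type} [CommRing A] [IsLocalRing A] (ρ : GaloisRepAdic A)
    (σ : AlgebraicClosure ℚ ≃ₐ[ℚ] AlgebraicClosure ℚ) :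
    LinearMap.charpoly (ρ.residual.ρ σ) =
      (LinearMap.charpoly (ρ.ρ σ)).map (IsLocalRing.residue A) :=
  LinearMap.charpoly_baseChange (ρ.ρ σ) (A := IsLocalRing.ResidueField A)

/-- The reduction of a representation unramified at `q` is unramified at `q`. -/
theorem isUnramifiedAt_residual {A : Type} [CommRing A] [IsLocalRing A] {ρ : GaloisRepAdic A}
    {q : ℕ} (h : ρ.IsUnramifiedAt q) : ρ.residual.IsUnramifiedAt q := fun P hP σ hσ => by
  show (ρ.ρ σ).baseChange (IsLocalRing.ResidueField A) = 1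
  rw [h P hP σ hσ, LinearMap.baseChange_one]

theorem isUnramifiedAt_baseChangeAlong {k k' : Type} [Field k] [Field k'] (e : k →+* k')
    {ρ : ResidualGaloisRep k} {q : ℕ} (h : ρ.IsUnramifiedAt q) :
    (ρ.baseChangeAlong e).IsUnramifiedAt q := fun P hP σ hσ => by
  let : Algebra k k' := e.toAlgebra
  show (ρ.ρ σ).baseChange k' = 1
  rw [h P hP σ hσ, LinearMap.baseChange_one]

/-- The trivial residual representation. -/
def trivialRep (k : Type) [Field k] : ResidualGaloisRep k where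
  V := Fin 2 → k
  finrank_eq := Module.finrank_fin_fun k
  ρ := 1
  factorsThroughFiniteLevel := ⟨⊥, inferInstance, fun _ _ => rfl⟩

/-- A normalised eigenform has an attached residual Galois representation, given representations
at the points of the Hecke algebra and finiteness of the Hecke algebra. -/
theorem exists_residualGaloisRep_isAttachedTo (h30 : GaloisRepOfPoint)
    (h22 : ∀ (N : ℕ) [NeZero N] (S : Set ℕ), Module.Finite ℤ (CuspForm.heckeAlgebra N 2 S))
    {N : ℕ} {g : CuspForm (CongruenceSubgroup.Gamma0 N) 2} (hg : g.IsNormalizedEigenform)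
    {p : ℕ} (hp : p.Prime) {k : Type} [Field k] [CharP k p] (φ : Z̄ →+* k) :
    ∃ ρ : ResidualGaloisRep k, ρ.IsAttachedTo g φ ∧
      ∀ ℓ : ℕ, ℓ.Prime → ¬ ℓ ∣ N * p → ρ.IsUnramifiedAt ℓ := by
  rcases eq_or_ne N 0 with hN | hN
  · refine ⟨trivialRep k, fun ℓ _ hℓN => absurd (hN ▸ dvd_zero ℓ) hℓN,
      fun ℓ _ hℓ => absurd ?_ hℓ⟩
    simp [hN]
  have : NeZero N := ⟨hN⟩
  have : Fact p.Prime := ⟨hp⟩
  have hNp : N * p ≠ 0 := mul_ne_zero hN hp.ne_zero
  set S : Finset ℕ := (N * p).primeFactors with hS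
  have : Module.Finite ℤ (CuspForm.heckeAlgebra N 2 (↑S : Set ℕ)) := h22 N _
  obtain ⟨χ, hχ⟩ := exists_eigenCharacter_integral hg (↑S : Set ℕ)
  let R : Subring Z̄ := χ.range
  have : Module.Finite ℤ R :=
    Module.Finite.of_surjective (χ.rangeRestrict.toAddMonoidHom.toIntLinearMap)
      χ.rangeRestrict_surjective
  let P : Ideal R := RingHom.ker (φ.comp R.subtype)
  have : P.IsPrime := RingHom.ker_isPrime _
  have hpP : (p : R) ∈ P := by
    rw [RingHom.mem_ker, map_natCast, CharP.cast_eq_zero]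
  obtain ⟨O, _, _, _, _, _, _, ι, -, hιP, hpO⟩ := exists_completeDVR R P hp.ne_zero hpP
  obtain ⟨O'', _, _, _, _, _, _, _, _, hloc, -, ρ, hfrob, hunr⟩ :=
    h30 p N S (Nat.mem_primeFactors.mpr ⟨hp, dvd_mul_left p N, hNp⟩)
      (fun q hq hqN => Nat.mem_primeFactors.mpr ⟨hq, hqN.mul_right p, hNp⟩) O hpO
      (ι.comp χ.rangeRestrict)
  let θ : R →+* IsLocalRing.ResidueField O'' :=
    (IsLocalRing.residue O'').comp ((algebraMap O O'').comp ι)
  have hθ : RingHom.ker θ = RingHom.ker (φ.comp R.subtype) := by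
    ext r
    rw [RingHom.mem_ker, RingHom.comp_apply, IsLocalRing.residue_eq_zero_iff,
      RingHom.comp_apply, ← Ideal.mem_comap, IsLocalRing.maximalIdeal_comap (algebraMap O O''),
      ← Ideal.mem_comap, hιP]
  obtain ⟨e, he⟩ := exists_residueField_hom hp φ R.subtype θ hθ
  refine ⟨ρ.residual.baseChangeAlong e, fun ℓ hℓ hℓN hℓk A hA σ hσ => ?_, fun ℓ hℓ hℓNp => ?_⟩
  · have hℓp : ℓ ≠ p := by
      rintro rfl
      exact hℓk (CharP.cast_eq_zero k ℓ)
    have hℓS : ℓ ∉ (↑S : Set ℕ) := fun h => by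
      rcases (Nat.Prime.dvd_mul hℓ).mp
        (Nat.mem_primeFactors.mp (Finset.mem_coe.mp h)).2.1 with h' | h'
      · exact hℓN h'
      · exact hℓp ((Nat.prime_dvd_prime_iff_eq hℓ hp).mp h')
    refine ⟨χ (CuspForm.heckeAlgebra.T hℓ hℓN hℓS), hχ ℓ hℓ hℓN hℓS, ?_⟩
    have h := RingHom.congr_fun he (χ.rangeRestrict (CuspForm.heckeAlgebra.T hℓ hℓN hℓS))
    simp only [θ, RingHom.comp_apply] at h
    rw [charpoly_baseChangeAlong, charpoly_residual, hfrob ℓ hℓ hℓN hℓS A hA σ hσ]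
    simp only [Polynomial.map_add, Polynomial.map_sub, Polynomial.map_mul, Polynomial.map_pow,
      map_X, map_C, RingHom.comp_apply, map_natCast, Polynomial.map_natCast, h]
    rfl
  · have hℓN : ¬ ℓ ∣ N := fun h => hℓNp (h.mul_right p)
    have hℓp : ℓ ≠ p := by
      rintro rfl
      exact hℓNp (dvd_mul_left ℓ N)
    exact isUnramifiedAt_baseChangeAlong e (isUnramifiedAt_residual (hunr ℓ hℓ hℓN hℓp))

end Fermat.Agent.HeckeAlg
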