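import Mathlib.RingTheory.DedekindDomain.IntegralClosure
import Mathlib.RingTheory.DedekindDomain.Dvr
import Mathlib.RingTheory.LocalRing.ResidueField.Basic
import Mathlib.RingTheory.DiscreteValuationRing.TFAE
import Fermat.Prelude.Thm_IsLocalRing_isAdicComplete_of_module_finite
import Fermat.Prelude.Thm_Algebra_finite_maximalSpectrum_and_bijective_localization_of_module_finite

/-!
# Finite extensions of complete discrete valuation rings

The integral closure of a complete DVR in a finite separable extension of its fraction field is a
complete DVR, finite over it, with finite residue field if the base has one.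
-/

set_option autoImplicit false

noncomputable section

open IsLocalRing

namespace Fermat.Agent.HeckeAlg

/-- A domain which is finite over a complete Noetherian local ring is local. -/
theorem isLocalRing_of_module_finite {O A : Type} [CommRing O] [IsLocalRing O] [IsNoetherianRing O]
    [IsAdicComplete (maximalIdeal O) O] [CommRing A] [IsDomain A] [Algebra O A]
    [Module.Finite O A] : IsLocalRing A := by
  classical
  obtain ⟨-, hbij, -, -⟩ :=
    Algebra.finite_maximalSpectrum_and_bijective_localization_of_module_finite (𝒪 := O) A
  have hsub : ∀ I J : MaximalSpectrum A, I = J := by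
    intro I J
    by_contra hne
    obtain ⟨e, he⟩ := hbij.2 (Pi.single I 1)
    have hI : algebraMap A (Localization.AtPrime I.asIdeal) e = 1 := by
      simpa using congrFun he I
    have hJ : algebraMap A (Localization.AtPrime J.asIdeal) e = 0 := by
      simpa [Pi.single_eq_of_ne (Ne.symm hne)] using congrFun he J
    rw [IsLocalization.to_map_eq_zero_iff _ J.asIdeal.primeCompl_le_nonZeroDivisors] at hJ
    rw [hJ, map_zero] at hI
    exact zero_ne_one hI
  obtain ⟨M, hM⟩ := Ideal.exists_maximal A
  exact IsLocalRing.of_unique_max_ideal
    ⟨M, hM, fun M' hM' => congrArg MaximalSpectrum.asIdeal (hsub ⟨M', hM'⟩ ⟨M, hM⟩)⟩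

/-- The integral closure of a complete DVR in a finite separable extension of its fraction
field. -/
theorem exists_completeDVR_integralClosure (O : Type) [CommRing O] [IsDomain O]
    [IsDiscreteValuationRing O] [IsAdicComplete (maximalIdeal O) O]
    (K L : Type) [Field K] [Algebra O K] [IsFractionRing O K] [Field L] [Algebra K L]
    [Algebra O L] [IsScalarTower O K L] [FiniteDimensional K L] [Algebra.IsSeparable K L] :
    ∃ (_ : IsDiscreteValuationRing (integralClosure O L)),
      IsAdicComplete (maximalIdeal (integralClosure O L)) (integralClosure O L) ∧
      Module.Finite O (integralClosure O L) ∧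
      IsLocalHom (algebraMap O (integralClosure O L)) ∧
      Function.Injective (algebraMap O (integralClosure O L)) ∧
      IsFractionRing (integralClosure O L) L ∧
      (Finite (ResidueField O) → Finite (ResidueField (integralClosure O L))) := by
  have hinj : Function.Injective (algebraMap O L) := by
    rw [IsScalarTower.algebraMap_eq O K L]
    exact (algebraMap K L).injective.comp (IsFractionRing.injective O K)
  have hinjA : Function.Injective (algebraMap O (integralClosure O L)) := fun x y h =>
    hinj (congrArg Subtype.val h)
  have : Module.Finite O (integralClosure O L) := IsIntegralClosure.finite O K L _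
  have : IsDedekindDomain (integralClosure O L) := IsIntegralClosure.isDedekindDomain O K L _
  have : IsLocalRing (integralClosure O L) := isLocalRing_of_module_finite (O := O)
  have : IsFractionRing (integralClosure O L) L :=
    IsIntegralClosure.isFractionRing_of_finite_extension O K L _
  have : IsLocalHom (algebraMap O (integralClosure O L)) :=
    RingHom.IsIntegral.isLocalHom
      (algebraMap_isIntegral_iff.mpr (Algebra.IsIntegral.of_finite O _)) hinjA
  have hnf : ¬ IsField (integralClosure O L) := fun h =>
    IsDiscreteValuationRing.not_isField O
      (isField_of_isIntegral_of_isField hinjA h)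
  have hdvr : IsDiscreteValuationRing (integralClosure O L) :=
    ((IsDiscreteValuationRing.TFAE (integralClosure O L) hnf).out 0 2).mpr
      ‹IsDedekindDomain (integralClosure O L)›
  refine ⟨hdvr, IsLocalRing.isAdicComplete_of_module_finite (𝒪 := O), inferInstance, inferInstance,
    hinjA, inferInstance, fun hfin => ?_⟩
  have := hfin
  exact Module.finite_of_finite (ResidueField O)

end Fermat.Agent.HeckeAlg
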