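import Fermat.Agent.HeckeAlg.FiniteLevel
import Fermat.Agent.HeckeAlg.ResidueEmbedding
import Fermat.Prelude.Def_FreyPackage_EigenformResidualAttachment
import Mathlib.LinearAlgebra.Charpoly.Basic
import Mathlib.Algebra.Algebra.ZMod

/-!
# Eigenform residual attachment for a Frey curve

If every normalised weight-two eigenform has a residual Galois representation attached to it
(`ResidualRepOfEigenform`) and the `p`-torsion of the Frey curve is finite, then the attachment
condition `FreyPackage.EigenformResidualAttachmentAt` holds at every level.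
-/

set_option autoImplicit false

noncomputable section

open Polynomial
open scoped WeierstrassCurve.Affine

namespace Fermat.Agent.HeckeAlg

local notation "Z̄" => integralClosure ℤ ℂ

/-- Every normalised weight-two eigenform has a residual Galois representation attached to it,
unramified away from `N p`. -/
def ResidualRepOfEigenform : Prop :=
  ∀ {N : ℕ} {g : CuspForm (CongruenceSubgroup.Gamma0 N) 2}, g.IsNormalizedEigenform →
    ∀ {p : ℕ}, p.Prime → ∀ {k : Type} [Field k] [CharP k p] (φ : Z̄ →+* k),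
      ∃ ρ : ResidualGaloisRep k, ρ.IsAttachedTo g φ ∧
        ∀ ℓ : ℕ, ℓ.Prime → ¬ ℓ ∣ N * p → ρ.IsUnramifiedAt ℓ

/-- Trace and determinant of a planar endomorphism, read off its characteristic polynomial. -/
theorem trace_det_of_charpoly {k V : Type*} [Field k] [AddCommGroup V] [Module k V]
    [Module.Finite k V] (h2 : Module.finrank k V = 2) {f : Module.End k V} {a d : k}
    (h : f.charpoly = X ^ 2 - C a * X + C d) :
    LinearMap.trace k V f = a ∧ LinearMap.det f = d := by
  classical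
  let b := Module.finBasisOfFinrankEq k V h2
  rw [← LinearMap.charpoly_toMatrix f b, Matrix.charpoly_fin_two] at h
  rw [LinearMap.trace_eq_matrix_trace k b f, ← LinearMap.det_toMatrix b]
  have h1 := congrArg (fun q => Polynomial.coeff q 1) h
  have h0 := congrArg (fun q => Polynomial.coeff q 0) h
  simp [Polynomial.coeff_X_pow] at h1 h0
  exact ⟨h1, by simpa using h0⟩

/-- The residual attachment condition for a Frey curve follows from residual representations of
eigenforms and finiteness of its `p`-torsion. -/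
theorem eigenformResidualAttachmentAt (h29 : ResidualRepOfEigenform) (P : FreyPackage)
    (hfin : Finite (Submodule.torsionBy ℤ (P.freyCurve⁄(AlgebraicClosure ℚ)).Point P.p))
    (M : ℕ) : P.EigenformResidualAttachmentAt M := by
  intro g hg 𝔪 h𝔪 hp𝔪
  have := h𝔪
  have : Fact P.p.Prime := ⟨P.pp⟩
  let : Field (Z̄ ⧸ 𝔪) := Ideal.Quotient.field 𝔪
  have : CharP (Z̄ ⧸ 𝔪) P.p :=
    (CharP.charP_iff_prime_eq_zero P.pp).mpr (by
      rw [← map_natCast (Ideal.Quotient.mk 𝔪)]
      exact Ideal.Quotient.eq_zero_iff_mem.mpr hp𝔪)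
  obtain ⟨ρ, hρ, -⟩ := h29 hg P.pp (Ideal.Quotient.mk 𝔪)
  obtain ⟨F, hF, hGal, hker⟩ := exists_numberField_level
    (galoisFactorsThroughFiniteLevel_galoisRepModuleEnd P.freyCurve P.p)
    ρ.factorsThroughFiniteLevel
  have := hF
  have := hGal
  have hchar : ∀ ℓ : ℕ, ℓ.Prime → ℓ ≠ P.p → (ℓ : Z̄ ⧸ 𝔪) ≠ 0 := fun ℓ hℓ hne h =>
    hne ((Nat.prime_dvd_prime_iff_eq P.pp hℓ).mp ((CharP.cast_eq_zero_iff _ P.p ℓ).mp h)).symm
  refine ⟨Z̄ ⧸ 𝔪, inferInstance, ZMod.algebra _ P.p, ρ.V, inferInstance, inferInstance, ρ.ρ,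
    Ideal.Quotient.mk 𝔪, F, inferInstance, { }, hGal, inferInstance, inferInstance,
    Ideal.mk_ker.ge, ρ.finrank_eq, ?_, fun ℓ hℓ hℓM hℓp A hA τ hτ => ?_,
    fun ℓ hℓ hℓM hℓp A hA τ hτ => ?_⟩
  · intro σ hσ
    have h := hker σ fun x hx => by
      have h := AlgEquiv.restrictNormal_commutes σ F ⟨x, hx⟩
      rw [show σ.restrictNormal F = 1 from MonoidHom.mem_ker.mp hσ] at h
      exact h.symm
    exact Subgroup.mem_inf.mpr ⟨MonoidHom.mem_ker.mpr h.1, MonoidHom.mem_ker.mpr h.2⟩
  · obtain ⟨a, ha, hcp⟩ := hρ ℓ hℓ hℓM (hchar ℓ hℓ hℓp) A hA τ hτ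
    exact ⟨a, ha, (trace_det_of_charpoly ρ.finrank_eq hcp).1⟩
  · obtain ⟨a, -, hcp⟩ := hρ ℓ hℓ hℓM (hchar ℓ hℓ hℓp) A hA τ hτ
    exact (trace_det_of_charpoly ρ.finrank_eq hcp).2

end Fermat.Agent.HeckeAlg
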