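import Mathlib.RingTheory.AdicCompletion.LocalRing
import Mathlib.RingTheory.DedekindDomain.Dvr
import Mathlib.RingTheory.DiscreteValuationRing.Basic
import Mathlib.RingTheory.Filtration
import Mathlib.RingTheory.Ideal.GoingUp
import Mathlib.NumberTheory.NumberField.Basic
import Mathlib.NumberTheory.NumberField.Ideal.Basic

/-!
# Complete discrete valuation rings receiving a finite `ℤ`-algebra

For a domain `R`, finite over `ℤ`, of characteristic zero, and a prime `P` of `R` over `p`, we
construct a complete DVR `O` of characteristic zero with finite residue field and an injective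
homomorphism `R → O` whose maximal ideal pulls back to `P`.
-/

set_option autoImplicit false

noncomputable section

open IsLocalRing

namespace Fermat.Agent.HeckeAlg

section Completion

variable (S : Type) [CommRing S] [IsDomain S] [IsDiscreteValuationRing S]

local notation "Ŝ" => AdicCompletion (maximalIdeal S) S

theorem algebraMap_completion_injective : Function.Injective (algebraMap S Ŝ) := by
  rw [injective_iff_map_eq_zero]
  intro x hx
  have hmem : x ∈ ⨅ n : ℕ, maximalIdeal S ^ n := by
    refine Submodule.mem_iInf _ |>.mpr fun n => ?_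
    have h := congrArg (AdicCompletion.evalₐ (maximalIdeal S) n) hx
    rw [map_zero, AlgHom.commutes] at h
    exact Ideal.Quotient.eq_zero_iff_mem.mp h
  rwa [Ideal.iInf_pow_eq_bot_of_isLocalRing _ (maximalIdeal.isMaximal S).ne_top,
    Ideal.mem_bot] at hmem

theorem completion_exists_unit_mul_pow {π : S} (hπ : Irreducible π) {x : Ŝ} (hx : x ≠ 0) :
    ∃ (n : ℕ) (u : Ŝˣ), x = u * algebraMap S Ŝ π ^ n := by
  have hmax : maximalIdeal Ŝ = Ideal.span {algebraMap S Ŝ π} := by
    rw [AdicCompletion.maximalIdeal_eq_map, hπ.maximalIdeal_eq, Ideal.map_span, Set.image_singleton]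
  have hH : ∃ n, x ∉ maximalIdeal Ŝ ^ n := by
    by_contra h
    push Not at h
    refine hx (IsHausdorff.haus' (I := maximalIdeal Ŝ) x fun n => ?_)
    rw [SModEq.sub_mem, sub_zero, smul_eq_mul, Ideal.mul_top]
    exact h n
  classical
  obtain ⟨n, hn⟩ : ∃ n, Nat.find hH = n + 1 := by
    refine Nat.exists_eq_succ_of_ne_zero fun h0 => ?_
    have := Nat.find_spec hH
    simp [h0] at this
  have hin : x ∈ maximalIdeal Ŝ ^ n := by
    by_contra h
    have := Nat.find_min' hH h
    omega
  rw [hmax, Ideal.span_singleton_pow, Ideal.mem_span_singleton'] at hin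
  obtain ⟨a, ha⟩ := hin
  have hu : IsUnit a := by
    by_contra h
    have hmem : a ∈ maximalIdeal Ŝ := h
    refine Nat.find_spec hH ?_
    rw [hn, pow_succ', ← ha]
    exact Ideal.mul_mem_mul hmem
      (Ideal.pow_mem_pow (hmax ▸ Ideal.mem_span_singleton_self _) n)
  exact ⟨n, hu.unit, by rw [IsUnit.unit_spec, ha]⟩

theorem completion_isDomain : IsDomain Ŝ := by
  obtain ⟨π, hπ⟩ := IsDiscreteValuationRing.exists_irreducible S
  have : Nontrivial Ŝ := (algebraMap_completion_injective S).nontrivial
  have : NoZeroDivisors Ŝ := by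
    refine ⟨fun {a b} hab => ?_⟩
    by_contra h
    push Not at h
    obtain ⟨m, u, rfl⟩ := completion_exists_unit_mul_pow S hπ h.1
    obtain ⟨n, v, rfl⟩ := completion_exists_unit_mul_pow S hπ h.2
    have h1 : ((u * v : Ŝˣ) : Ŝ) * algebraMap S Ŝ (π ^ (m + n)) = 0 := by
      rw [← hab, Units.val_mul, map_pow, pow_add]; ring
    rw [Units.mul_right_eq_zero, map_eq_zero_iff _ (algebraMap_completion_injective S)] at h1
    exact pow_ne_zero _ hπ.ne_zero h1
  exact NoZeroDivisors.to_isDomain _

/-- The completion of a discrete valuation ring is one. -/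
theorem completion_isDiscreteValuationRing [IsDomain Ŝ] : IsDiscreteValuationRing Ŝ := by
  obtain ⟨π, hπ⟩ := IsDiscreteValuationRing.exists_irreducible S
  have hmax : maximalIdeal Ŝ = Ideal.span {algebraMap S Ŝ π} := by
    rw [AdicCompletion.maximalIdeal_eq_map, hπ.maximalIdeal_eq, Ideal.map_span, Set.image_singleton]
  have h0 : algebraMap S Ŝ π ≠ 0 :=
    (map_ne_zero_iff _ (algebraMap_completion_injective S)).mpr hπ.ne_zero
  have hprime : Prime (algebraMap S Ŝ π) := by
    rw [← Ideal.span_singleton_prime h0, ← hmax]
    infer_instance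
  refine IsDiscreteValuationRing.ofHasUnitMulPowIrreducibleFactorization
    ⟨algebraMap S Ŝ π, hprime.irreducible, fun {x} hx => ?_⟩
  obtain ⟨n, u, hu⟩ := completion_exists_unit_mul_pow S hπ hx
  exact ⟨n, u, by rw [hu, mul_comm]⟩

theorem completion_finite_residueField [Finite (ResidueField S)] : Finite (ResidueField Ŝ) :=
  Finite.of_surjective _ (AdicCompletion.residueField_map_bijective (R := S)).2

end Completion

/-- A finite `ℤ`-algebra domain of characteristic zero with a prime over `p` maps injectively to a
complete DVR of characteristic zero with finite residue field, the maximal ideal pulling back to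
that prime. -/
theorem exists_completeDVR (R : Type) [CommRing R] [IsDomain R] [CharZero R] [Module.Finite ℤ R]
    (P : Ideal R) [P.IsPrime] {p : ℕ} (hp : p ≠ 0) (hpP : (p : R) ∈ P) :
    ∃ (O : Type) (_ : CommRing O) (_ : IsDomain O) (_ : IsDiscreteValuationRing O)
      (_ : IsAdicComplete (maximalIdeal O) O) (_ : Finite (ResidueField O)) (_ : CharZero O)
      (ι : R →+* O), Function.Injective ι ∧ (maximalIdeal O).comap ι = P ∧
        (p : O) ∈ maximalIdeal O := by
  let K := FractionRing R
  have : CharZero K := charZero_of_injective_algebraMap (IsFractionRing.injective R K)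
  have : Algebra.IsIntegral ℤ R := Algebra.IsIntegral.of_finite ℤ R
  have : FiniteDimensional ℚ K := by
    have hspan : Submodule.span ℚ (Set.range (algebraMap R K)) = ⊤ := by
      rw [eq_top_iff]
      intro z _
      obtain ⟨a, b, hb, rfl⟩ := IsFractionRing.div_surjective R z
      obtain ⟨c, hc⟩ : ∃ c : R, ∃ m : ℤ, m ≠ 0 ∧ b * c = m := by
        have hne : (Ideal.span {b}).comap (algebraMap ℤ R) ≠ ⊥ :=
          Ideal.comap_ne_bot_of_integral_mem (nonZeroDivisors.ne_zero hb)
            (Ideal.mem_span_singleton_self b) (Algebra.IsIntegral.isIntegral b)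
        obtain ⟨m, hm, hm0⟩ := Submodule.exists_mem_ne_zero_of_ne_bot hne
        obtain ⟨c, hc⟩ := Ideal.mem_span_singleton.mp (Ideal.mem_comap.mp hm)
        exact ⟨c, m, hm0, by simpa using hc.symm⟩
      obtain ⟨m, hm, hbc⟩ := hc
      have hbK : algebraMap R K b ≠ 0 := IsFractionRing.to_map_ne_zero_of_mem_nonZeroDivisors hb
      have hz : algebraMap R K a / algebraMap R K b =
          (m : ℚ)⁻¹ • algebraMap R K (a * c) := by
        rw [Algebra.smul_def, map_inv₀, map_intCast, map_mul]
        have hbc' : algebraMap R K b * algebraMap R K c = (m : K) := by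
          rw [← map_mul, hbc, map_intCast]
        have hm' : (m : K) ≠ 0 := Int.cast_ne_zero.mpr hm
        show _ = (m : K)⁻¹ * _
        rw [eq_inv_mul_iff_mul_eq₀ hm', mul_div_assoc', div_eq_iff hbK, ← hbc']
        ring
      rw [hz]
      exact Submodule.smul_mem _ _ (Submodule.subset_span ⟨_, rfl⟩)
    obtain ⟨s, hs⟩ := Module.Finite.fg_top (R := ℤ) (M := R)
    classical
    refine ⟨⟨s.image (algebraMap R K), ?_⟩⟩
    rw [eq_top_iff, ← hspan, Submodule.span_le]
    rintro _ ⟨r, rfl⟩
    have hr : r ∈ Submodule.span ℤ (s : Set R) := by rw [hs]; trivial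
    induction hr using Submodule.span_induction with
    | mem x hx => exact Submodule.subset_span (Finset.mem_image_of_mem _ hx)
    | zero => simp
    | add x y _ _ hx hy => rw [map_add]; exact add_mem hx hy
    | smul n x _ hx => rw [map_zsmul]; exact zsmul_mem hx n
  have : NumberField K := { }
  have hintR : ∀ r : R, @IsIntegral ℤ K _ _ (Ring.toIntAlgebra K) (algebraMap R K r) := fun r =>
    map_isIntegral_int (algebraMap R K) (Algebra.IsIntegral.isIntegral r)
  let j : R →+* NumberField.RingOfIntegers K :=
    { NumberField.RingOfIntegers.restrict_monoidHom (algebraMap R K).toMonoidHom hintR,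
      NumberField.RingOfIntegers.restrict_addMonoidHom (algebraMap R K).toAddMonoidHom hintR with }
  have hj : Function.Injective j := fun x y h =>
    IsFractionRing.injective R K (congrArg Subtype.val h)
  let : Algebra R (NumberField.RingOfIntegers K) := j.toAlgebra
  have : Algebra.IsIntegral R (NumberField.RingOfIntegers K) :=
    ⟨fun x => (Algebra.IsIntegral.isIntegral (R := ℤ) x).tower_top⟩
  obtain ⟨Q, -, hQ, hQcomap⟩ := Ideal.exists_ideal_over_prime_of_isIntegral_of_isPrime
    (S := NumberField.RingOfIntegers K) P ⊥ (by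
      rw [Ideal.comap_bot_of_injective (algebraMap R (NumberField.RingOfIntegers K)) hj]
      exact bot_le)
  have hQcomap : Q.comap j = P := hQcomap
  have hpQ : (p : NumberField.RingOfIntegers K) ∈ Q := by
    rw [← map_natCast j]
    exact Ideal.mem_comap.mp (hQcomap.symm ▸ hpP : (p : R) ∈ Q.comap j)
  have hQ0 : Q ≠ ⊥ := by
    rintro rfl
    exact Nat.cast_ne_zero.mpr hp (Ideal.mem_bot.mp hpQ)
  have : Q.IsPrime := hQ
  let S := Localization.AtPrime Q
  have : IsDiscreteValuationRing S :=
    IsLocalization.AtPrime.isDiscreteValuationRing_of_dedekind_domain _ hQ0 S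
  have : Finite (ResidueField S) := by
    have : Q.IsMaximal := Ideal.IsPrime.isMaximal hQ hQ0
    have : Finite (NumberField.RingOfIntegers K ⧸ Q) := Ideal.finiteQuotientOfFreeOfNeBot Q hQ0
    exact Finite.of_surjective _
      (IsLocalization.AtPrime.equivQuotMaximalIdeal Q S).surjective
  let O := AdicCompletion (maximalIdeal S) S
  have : IsDomain O := completion_isDomain S
  have : IsDiscreteValuationRing O := completion_isDiscreteValuationRing S
  have : Finite (ResidueField O) := completion_finite_residueField S
  let ι : R →+* O := (algebraMap S O).comp ((algebraMap _ S).comp j)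
  have hι : Function.Injective ι :=
    (algebraMap_completion_injective S).comp
      ((IsLocalization.injective S Q.primeCompl_le_nonZeroDivisors).comp hj)
  have : CharZero O := charZero_of_injective_ringHom hι
  have hcomap : (maximalIdeal O).comap ι = P := by
    simp only [ι, ← Ideal.comap_comap]
    have h1 : (maximalIdeal O).comap (algebraMap S O) = maximalIdeal S :=
      IsLocalRing.maximalIdeal_comap (algebraMap S O)
    rw [h1, show (maximalIdeal S).comap (algebraMap (NumberField.RingOfIntegers K) S) = Q from
      IsLocalization.AtPrime.under_maximalIdeal S Q]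
    exact hQcomap
  refine ⟨O, inferInstance, inferInstance, inferInstance, inferInstance, inferInstance,
    inferInstance, ι, hι, hcomap, ?_⟩
  rw [← map_natCast ι, ← Ideal.mem_comap, hcomap]
  exact hpP

end Fermat.Agent.HeckeAlg
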